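import Fermat.Agent.S38.IA.Hecke.Spec3

/-!
# Row HARD, cell HECKE, leaf IA-ST, middle glue (B): the COR statement  (helper593)

The only input of the final assembly of IA-ST (`S38/H593/StAsm.lean`,
`iaStPt_h593 : IAMinZeroStatement → S35Statement → IAStCorStatement → IAStPtStatement953`)
which is not a closed theorem yet.  Only definitions here.

`K = KIA p Smin pv qv = Γ₀(N_min) ∩ Γ_H(Piv ∪ Q)`, `K₁ = KG p (ribetLevel p Smin Piv) qv =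
Γ₀(N_min · ∏ Piv) ∩ Γ_H(Q)` (same level as a number, `K ≤ K₁`).

`IAStCorStatement` : there is an `𝒪`-linear map `c : X_K(𝒪) → X_{K₁}(𝒪)` (the corestriction) and
an integer `n ≠ 0` (the index `[K₁ : K] = |Δ_Piv|`, or `1`) such that, for the localisation `V`
of `X_K(𝒪)` (`IsIAPart`):

* NAT: `c V ⊆ V₁` for every localisation `V₁` of `X_{K₁}(𝒪)` at the same eigen-system;
* EQUIVARIANCE: `c (⟨ℓ⟩^h T_ℓ v) = ⟨ℓ⟩^h T_ℓ (c v)` for `v ∈ V` and every good prime `ℓ`;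
* KERNEL: `c v = 0`, `v ∈ V` ⟹ `n • v ∈ chiRelIA 1 V = I_{Δ_Piv} V`
  (`res ∘ cor = ∑_{d ∈ Δ_Piv} ⟨d⟩`).
-/

set_option autoImplicit false

open Polynomial IsLocalRing CongruenceSubgroup
open scoped MatrixGroups

namespace Fermat.Agent.S38.H593

open Fermat.Agent.S59.Arch Fermat.Agent.S59.TW.H959 Fermat.Agent.S59.TW Fermat.Agent.S59.H765
open Fermat.Agent.S59.TW.H653 Fermat.Agent.S59.TW.Aut
open Fermat.Agent.S38.IA Fermat.Agent.S38.IA.Hecke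
open CuspForm

/-- **IA-ST-COR.**  Binders of `IAStStatement` (without `_hmin`, `a`); see the header. -/
def IAStCorStatement : Prop :=
  ∀ (p : ℕ) [Fact p.Prime] (_hp5 : 5 ≤ p)
    (𝒪 : Type) [CommRing 𝒪] [IsDomain 𝒪] [IsDiscreteValuationRing 𝒪]
    [IsAdicComplete (maximalIdeal 𝒪) 𝒪] [Finite (ResidueField 𝒪)] [CharZero 𝒪]
    (ρbar : ResidualGaloisRep (ResidueField 𝒪)) (Smin : Finset ℕ)
    (_h : ResidualHyp p 𝒪 ρbar Smin)
    (_hflat : (GaloisRepAdic.ofResidualGaloisRep ρbar).IsFlatAt p)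
    (Piv : Finset ℕ) (_hPiv : IsPivotSet p ρbar Smin Piv)
    (k : ℕ) (pv : Fin k → ℕ) (_hpv : Function.Injective pv)
    (_hpvPiv : Finset.univ.image pv = Piv)
    (n r : ℕ) (qv : Fin r → ℕ) (_hq : IsTWSet p ρbar (Smin ∪ Piv) n qv)
    [NeZero (wilesLevel p .flat Smin (Smin ∪ Piv ∪ Finset.univ.image qv))]
    (PQ : HeckePkg p 𝒪 ρbar .flat Smin (Smin ∪ Piv ∪ Finset.univ.image qv))
    (α : Fin r → 𝒪) (_hα : IsFrobLift ρbar qv α)
    (V : Submodule 𝒪 (XIA p Smin pv qv 𝒪)) (h : ℕ),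
    IsIAPart PQ α V → IsHalf p pv h → IsHalf p qv h →
    ∃ (c : XIA p Smin pv qv 𝒪 →ₗ[𝒪] (Additive (KG p (ribetLevel p Smin Piv) qv) →+ 𝒪))
      (m : ℕ), m ≠ 0 ∧
      (∀ V₁ : Submodule 𝒪 (Additive (KG p (ribetLevel p Smin Piv) qv) →+ 𝒪),
        IsLocPart (isMid_KG p (ribetLevel p Smin Piv) qv) (TsetOf PQ) (UsetOf qv α) V₁ →
        ∀ v ∈ V, c v ∈ V₁) ∧
      (∀ (ℓ : ℕ) (hℓ : ℓ.Prime),
        ¬ ℓ ∣ wilesLevel p .flat Smin (Smin ∪ Piv ∪ Finset.univ.image qv) →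
        ℓ ∉ (↑(Smin ∪ Piv ∪ Finset.univ.image qv) : Set ℕ) → ∀ v ∈ V,
        c (tOpTw (isMid_KIA p Smin pv qv) 𝒪 h ℓ hℓ v) =
          tOpTw (isMid_KG p (ribetLevel p Smin Piv) qv) 𝒪 h ℓ hℓ (c v)) ∧
      ∀ v ∈ V, c v = 0 → m • v ∈ chiRelIA p Smin pv qv 1 V

end Fermat.Agent.S38.H593
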