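import Fermat.Agent.S38.H593.StUU
import Fermat.Agent.S38.H593.StCorSpec
import Fermat.Agent.S38.H953.NuPtSpec
import Fermat.Agent.S38.H264.PsiK1
import Fermat.Agent.S38.H264.Hocc
import Fermat.Agent.S38.H53.StCore
import Fermat.Agent.S59.TW.H324.CuspPkg

/-!
# Row HARD, cell HECKE, leaf IA-ST, middle glue (C): the final assembly  (helper593)

`iaStPt_h593 : IAMinZeroStatement → S35Statement → IAStCorStatement → IAStPtStatement953`.
-/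

set_option autoImplicit false

open Polynomial IsLocalRing CongruenceSubgroup
open scoped MatrixGroups

namespace Fermat.Agent.S38.H593

open Fermat.Agent.S59.Arch Fermat.Agent.S59.TW.H959 Fermat.Agent.S59.TW Fermat.Agent.S59.H765
open Fermat.Agent.S59.TW.H653 Fermat.Agent.S59.TW.Aut Fermat.Agent.S59.TW.H201
open Fermat.Agent.S38.IA Fermat.Agent.S38.IA.Hecke
open Fermat.Agent.S38.H953
open CuspForm

section Stab

variable {M : ℕ} {K : Subgroup SL(2, ℤ)} (hK : IsMid M K)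
  {𝒪 : Type} [CommRing 𝒪] [IsLocalRing 𝒪]
  {Tset Uset : Set (ℕ × 𝒪)} {V : Submodule 𝒪 (Additive K →+ 𝒪)}

include hK in
theorem isLocPart_TK_mem_h593 (hV : IsLocPart hK Tset Uset V) (ℓ : ℕ) [Fact ℓ.Prime]
    (hℓ : ¬ ℓ ∣ M) {x : Additive K →+ 𝒪} (hx : x ∈ V) : TK M K ℓ x ∈ V := by
  obtain ⟨e, -, e2, e3, e4, -, -, -⟩ := hV.exists_proj
  rw [← e3 x hx, ← e4 ℓ hℓ]
  exact e2 _

include hK in
theorem isLocPart_UK_mem_h593 (hV : IsLocPart hK Tset Uset V) (q : ℕ) [Fact q.Prime]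
    (hq : q ∣ M) {x : Additive K →+ 𝒪} (hx : x ∈ V) : UK K q x ∈ V := by
  obtain ⟨e, -, e2, e3, -, e5, -, -⟩ := hV.exists_proj
  rw [← e3 x hx, ← e5 q hq]
  exact e2 _

theorem isLocPart_diamondU_mem_h593 (hV : IsLocPart hK Tset Uset V) (u : (ZMod M)ˣ)
    {x : Additive K →+ 𝒪} (hx : x ∈ V) : diamondU hK u x ∈ V := by
  obtain ⟨e, -, e2, e3, -, -, e6, -⟩ := hV.exists_proj
  rw [← e3 x hx, ← e6 u]
  exact e2 _

theorem isLocPart_tOpTw_mem_h593 (hV : IsLocPart hK Tset Uset V) (h ℓ : ℕ) (hℓ : ℓ.Prime)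
    (hℓM : ¬ ℓ ∣ M) {x : Additive K →+ 𝒪} (hx : x ∈ V) : tOpTw hK 𝒪 h ℓ hℓ x ∈ V := by
  unfold tOpTw tOp
  have : Fact ℓ.Prime := ⟨hℓ⟩
  exact isLocPart_diamondU_mem_h593 hK hV _ (isLocPart_TK_mem_h593 hK hV ℓ hℓM hx)

end Stab

/-! ## Arithmetic -/

section Arith2

variable {p : ℕ} {Smin Piv : Finset ℕ} {r : ℕ} {qv : Fin r → ℕ}

theorem gLevel_dvd_sq_h593 (L : ℕ) : gLevel L qv ∣ L * ∏ j, qv j ^ 2 := by
  unfold gLevel
  refine Nat.mul_dvd_mul_left L ?_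
  rw [Finset.prod_pow]
  exact Dvd.intro _ (sq _).symm

/-- A prime dividing `L · ∏ qv²` divides `L · ∏ qv`. -/
theorem dvd_gLevel_of_dvd_sq_h593 (L : ℕ) {ℓ : ℕ} (hℓ : ℓ.Prime)
    (hd : ℓ ∣ L * ∏ j, qv j ^ 2) : ℓ ∣ gLevel L qv := by
  unfold gLevel
  rcases (Nat.Prime.dvd_mul hℓ).mp hd with h1 | h1
  · exact dvd_mul_of_dvd_left h1 _
  · rw [Finset.prod_pow] at h1
    exact dvd_mul_of_dvd_right (hℓ.dvd_of_dvd_pow h1) _

end Arith2

/-! ## The assembly -/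

set_option maxSynthPendingDepth 3 in
theorem iaStPt_h593 (hMZ : IAMinZeroStatement) (hS35 : Fermat.Agent.S58.S35Statement)
    (hCor : IAStCorStatement) : IAStPtStatement953 := by
  intro p _ hp5 𝒪 _ _ _ _ _ _ ρbar Smin h hflat Piv hPiv hmin k pv hpv hpvPiv n r qv hq _ PQ α hα
    V h' a hV hh1 hh2 ha 𝒪' _ _ _ _ _ _ _ x hx hp' hsupp q hqP P hP φ hφ
  classical
  have hSp : ∀ x ∈ Smin, x.Prime := h.hSmin
  have hPp : ∀ x ∈ Piv, x.Prime := fun x hx => (hPiv x hx).1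
  have hQp : ∀ j, (qv j).Prime := fun j => (hq.2.1 j).1
  have hqv : ∀ j, (qv j).Prime ∧ qv j ∉ Smin ∪ Piv := fun j => ⟨(hq.2.1 j).1, (hq.2.1 j).2.1⟩
  have hqprime : q.Prime := hPp q hqP
  have : Fact q.Prime := ⟨hqprime⟩
  have : NeZero q := ⟨hqprime.ne_zero⟩
  have hpprime : p.Prime := Fact.out
  have hL : ribetLevel p Smin Piv ≠ 0 := H264.ribetLevel_ne_zero p Smin Piv hSp hPp
  have hM₁ : gLevel (ribetLevel p Smin Piv) qv ≠ 0 := gLevel_ribetLevel_ne_zero Piv hSp hPp hQp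
  have hN₁ : ribetLevel p Smin Piv * ∏ j, qv j ^ 2 ≠ 0 :=
    Nat.mul_ne_zero hL (Finset.prod_ne_zero_iff.mpr fun j _ => pow_ne_zero 2 (hQp j).ne_zero)
  have : NeZero (ribetLevel p Smin Piv * ∏ j, qv j ^ 2) := ⟨hN₁⟩
  have hSigP : ∀ x ∈ Smin ∪ Piv ∪ Finset.univ.image qv, x.Prime := by
    intro x hx
    rcases Finset.mem_union.mp hx with h1 | h1
    · rcases Finset.mem_union.mp h1 with h2 | h2
      · exact hSp x h2
      · exact hPp x h2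
    · obtain ⟨j, -, rfl⟩ := Finset.mem_image.mp h1
      exact hQp j
  have hsub : Smin ⊆ Smin ∪ Piv ∪ Finset.univ.image qv := fun x hx =>
    Finset.mem_union_left _ (Finset.mem_union_left _ hx)
  have hpSig : p ∈ Smin ∪ Piv ∪ Finset.univ.image qv := hsub h.hpSmin
  have hqp : q ≠ p := fun e => (hPiv q hqP).2.1 (e ▸ h.hpSmin)
  have hqSig : q ∈ Smin ∪ Piv ∪ Finset.univ.image qv :=
    Finset.mem_union_left _ (Finset.mem_union_right _ hqP)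
  -- the primes of the levels
  have hdvdM₁ : ∀ ℓ : ℕ, ℓ.Prime → ℓ ∣ gLevel (ribetLevel p Smin Piv) qv →
      ℓ ∈ Smin ∪ Piv ∪ Finset.univ.image qv := by
    intro ℓ hℓ hd
    rcases mem_of_prime_dvd_gLevel Piv hSp hPp hQp hℓ hd with (h1 | h1) | ⟨j, hj⟩
    · exact Finset.mem_union_left _ (Finset.mem_union_left _ (Finset.mem_of_mem_erase h1))
    · exact Finset.mem_union_left _ (Finset.mem_union_right _ h1)
    · exact Finset.mem_union_right _ (Finset.mem_image.mpr ⟨j, Finset.mem_univ j, hj.symm⟩)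
  have hT : ∀ x ∈ TsetOf PQ, x.1.Prime ∧ ¬ x.1 ∣ gLevel (ribetLevel p Smin Piv) qv := by
    rintro x ⟨hℓ, _, hℓS, _⟩
    exact ⟨hℓ, fun hd => hℓS (Finset.mem_coe.mpr (hdvdM₁ x.1 hℓ hd))⟩
  have hU : ∀ x ∈ UsetOf qv α, x.1.Prime ∧ x.1 ∣ gLevel (ribetLevel p Smin Piv) qv := by
    rintro x ⟨j, rfl⟩
    exact ⟨hQp j, dvd_gLevel (ribetLevel p Smin Piv) qv j⟩
  -- the localisation at the level `K₁`
  obtain ⟨V₁, hV₁⟩ := Fermat.Agent.S59.TW.Aut.H511.idem 𝒪 (gLevel (ribetLevel p Smin Piv) qv) hM₁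
    (KG p (ribetLevel p Smin Piv) qv) (isMid_KG p (ribetLevel p Smin Piv) qv)
    (TsetOf PQ) (UsetOf qv α) hT hU
  have hpar : ∀ v ∈ V₁, ModularCurve.Period.IsParabolicHom (KG p (ribetLevel p Smin Piv) qv) v :=
    Fermat.Agent.S59.TW.H324.isLocPart_parabolic_of_pkg p 𝒪 ρbar Smin h .flat
      (Smin ∪ Piv ∪ Finset.univ.image qv) hsub hSigP PQ hM₁
      (isMid_KG p (ribetLevel p Smin Piv) qv) hV₁
  have hqM₁ : q ∣ gLevel (ribetLevel p Smin Piv) qv :=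
    dvd_mul_of_dvd_left (H264.dvd_ribetLevel_of_mem p Smin Piv hqP) _
  have hqN : q ∣ ribetLevel p Smin Piv * ∏ j, qv j ^ 2 :=
    dvd_mul_of_dvd_left (H264.dvd_ribetLevel_of_mem p Smin Piv hqP) _
  have hqS : q ∉ (↑((Smin ∪ Piv ∪ Finset.univ.image qv).erase q) : Set ℕ) := fun hm =>
    Finset.notMem_erase q _ (Finset.mem_coe.mp hm)
  -- the corestriction
  obtain ⟨c, m, hm, hnat, heq, hker⟩ :=
    hCor p hp5 𝒪 ρbar Smin h hflat Piv hPiv k pv hpv hpvPiv n r qv hq PQ α hα V h' hV hh1 hh2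
  -- the action with `U_q`
  obtain ⟨Ψ, hΨT, hΨU⟩ := H264.exists_psiU_K1_forall p Smin Piv qv hSp hPp hq.1 hqv hh2 hqP hqN
    hqS 𝒪 V₁ hpar
    (fun ℓ hℓ hℓN _ v hv => isLocPart_tOpTw_mem_h593 _ hV₁ h' ℓ hℓ
      (fun hd => hℓN (hd.trans (gLevel_dvd_sq_h593 _))) hv)
    (fun v hv => isLocPart_UK_mem_h593 _ hV₁ q hqM₁ hv)
    (fun u v hv => isLocPart_diamondU_mem_h593 _ hV₁ u hv)
    (iaStUU_h593 hMZ p hp5 𝒪 ρbar Smin h hflat Piv hPiv hmin n r qv hq PQ α hα q hqP V₁ hV₁)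
  -- the corestriction `V → V₁`
  let c' : V →+ V₁ :=
    { toFun := fun v => ⟨c v, hnat V₁ hV₁ v v.2⟩
      map_zero' := Subtype.ext (by simp)
      map_add' := fun v w => Subtype.ext (by simp) }
  have hc'coe : ∀ v : V, ((c' v : V₁) : Additive (KG p (ribetLevel p Smin Piv) qv) →+ 𝒪) =
      c (v : XIA p Smin pv qv 𝒪) := fun _ => rfl
  -- side conditions of `st_of_action_h53`
  have hq2 : ¬ q ^ 2 ∣ ribetLevel p Smin Piv * ∏ j, qv j ^ 2 := by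
    intro hd
    have e : ribetLevel p Smin Piv * ∏ j, qv j ^ 2 =
        q * (ribetLevel p Smin (Piv.erase q) * ∏ j, qv j ^ 2) := by
      rw [ribetLevel_erase_mul (p := p) (Smin := Smin) hqP]
      ring
    rw [e, sq] at hd
    have hd' : q ∣ ribetLevel p Smin (Piv.erase q) * ∏ j, qv j ^ 2 :=
      Nat.dvd_of_mul_dvd_mul_left hqprime.pos hd
    have hP' : ∀ x ∈ Piv.erase q, x.Prime := fun x hx => hPp x (Finset.mem_of_mem_erase hx)
    rcases mem_of_prime_dvd_gLevel (Piv.erase q) hSp hP' hQp hqprime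
      (dvd_gLevel_of_dvd_sq_h593 _ hqprime hd') with (h1 | h1) | ⟨j, hj⟩
    · exact (hPiv q hqP).2.1 (Finset.mem_of_mem_erase h1)
    · exact (Finset.notMem_erase q Piv) h1
    · have := (hq.2.1 j).2.1
      rw [← hj] at this
      exact this (Finset.mem_union_right _ hqP)
  have hpS : p ∈ (Smin ∪ Piv ∪ Finset.univ.image qv).erase q :=
    Finset.mem_erase.mpr ⟨fun e => hqp e.symm, hpSig⟩
  have hNS : ∀ r' : ℕ, r'.Prime → r' ∣ ribetLevel p Smin Piv * ∏ j, qv j ^ 2 → r' ≠ q →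
      r' ∈ (Smin ∪ Piv ∪ Finset.univ.image qv).erase q := fun r' hr' hd hne =>
    Finset.mem_erase.mpr ⟨hne, hdvdM₁ r' hr' (dvd_gLevel_of_dvd_sq_h593 _ hr' hd)⟩
  have hgood : ∀ ℓ : ℕ, ℓ.Prime → ¬ ℓ ∣ ribetLevel p Smin Piv * ∏ j, qv j ^ 2 →
      ℓ ∉ (↑((Smin ∪ Piv ∪ Finset.univ.image qv).erase q) : Set ℕ) →
      ¬ ℓ ∣ wilesLevel p .flat Smin (Smin ∪ Piv ∪ Finset.univ.image qv) ∧
        ℓ ∉ (↑(Smin ∪ Piv ∪ Finset.univ.image qv) : Set ℕ) := by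
    intro ℓ hℓ hℓN hℓS
    have hℓq : ℓ ≠ q := fun e => hℓN (e ▸ hqN)
    have hℓSig : ℓ ∉ (↑(Smin ∪ Piv ∪ Finset.univ.image qv) : Set ℕ) := fun hm =>
      hℓS (Finset.mem_coe.mpr (Finset.mem_erase.mpr ⟨hℓq, Finset.mem_coe.mp hm⟩))
    exact ⟨fun hd => hℓSig (Finset.mem_coe.mpr
      (prime_dvd_wilesLevel p .flat hsub hSigP hpSig hℓ hd)), hℓSig⟩
  -- occurrence
  have hocc : ∀ Q : FreeAlgebra ℤ (H53.GoodIdx (ribetLevel p Smin Piv * ∏ j, qv j ^ 2)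
        (↑((Smin ∪ Piv ∪ Finset.univ.image qv).erase q) : Set ℕ)),
      Ψ (FreeAlgebra.lift ℤ (H53.tFamA (ribetLevel p Smin Piv * ∏ j, qv j ^ 2)
        (↑((Smin ∪ Piv ∪ Finset.univ.image qv).erase q) : Set ℕ)) Q) = 0 →
      FreeAlgebra.lift ℤ (fun i : H53.GoodIdx (ribetLevel p Smin Piv * ∏ j, qv j ^ 2)
          (↑((Smin ∪ Piv ∪ Finset.univ.image qv).erase q) : Set ℕ) =>
        (x : PQ.T →+* 𝒪') (PQ.H.π (heckeAlgebra.T i.2.1 (hgood i.1 i.2.1 i.2.2.1 i.2.2.2).1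
          (hgood i.1 i.2.1 i.2.2.1 i.2.2.2).2))) Q = 0 := by
    intro Q hQ
    refine H264.hocc_of_cor (𝒪 := 𝒪) (a : PQ.T →+* Module.End 𝒪 V) Ψ c'
      (fun i : H53.GoodIdx (ribetLevel p Smin Piv * ∏ j, qv j ^ 2)
          (↑((Smin ∪ Piv ∪ Finset.univ.image qv).erase q) : Set ℕ) =>
        PQ.H.π (heckeAlgebra.T i.2.1 (hgood i.1 i.2.1 i.2.2.1 i.2.2.2).1
          (hgood i.1 i.2.1 i.2.2.1 i.2.2.2).2))
      (H53.tFamA (ribetLevel p Smin Piv * ∏ j, qv j ^ 2)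
        (↑((Smin ∪ Piv ∪ Finset.univ.image qv).erase q) : Set ℕ)) ?_
      ((chiRelIA p Smin pv qv 1 V).comap V.subtype).toAddSubgroup m hm ?_
      (x : PQ.T →+* 𝒪') ?_ Q hQ
    · intro i v
      apply Subtype.ext
      rw [hc'coe]
      have h1 := ha i.1 i.2.1 (hgood i.1 i.2.1 i.2.2.1 i.2.2.2).1
        (hgood i.1 i.2.1 i.2.2.1 i.2.2.2).2 v
      have h2 := hΨT i.1 i.2.1 i.2.2.1 i.2.2.2 (c' v)
      have h3 := heq i.1 i.2.1 (hgood i.1 i.2.1 i.2.2.1 i.2.2.2).1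
        (hgood i.1 i.2.1 i.2.2.1 i.2.2.2).2 v v.2
      change c ((a (PQ.H.π (heckeAlgebra.T i.2.1 (hgood i.1 i.2.1 i.2.2.1 i.2.2.2).1
        (hgood i.1 i.2.1 i.2.2.1 i.2.2.2).2)) v : V) : XIA p Smin pv qv 𝒪) = _
      rw [h1, h3]
      exact h2.symm
    · intro v hv
      have h1 : c (v : XIA p Smin pv qv 𝒪) = 0 := by
        rw [← hc'coe, hv]
        rfl
      have h2 := hker v v.2 h1
      show ((m • v : V) : XIA p Smin pv qv 𝒪) ∈ chiRelIA p Smin pv qv 1 V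
      rw [Submodule.coe_smul_of_tower]
      exact h2
    · intro s hs
      exact hsupp s fun v => hs v
  exact H53.st_of_action_h53 (E := Module.End 𝒪 V₁) hS35 PQ.H (x : PQ.T →+* 𝒪') hx p hp'
    hqprime hqp hqN hq2 ((Smin ∪ Piv ∪ Finset.univ.image qv).erase q) hqS hpS hNS hgood Ψ hΨU
    hocc P hP φ hφ

end Fermat.Agent.S38.H593
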