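import Fermat.Agent.S38.H593.StAsm

/-!
# Row HARD / S59 cell (B2), leaf IA-ST: the GENERIC engine  (helper593)

The proofs of `S38/H593/StUU.lean` (A) and `S38/H593/StAsm.lean` (C) with every Spec3 object
replaced by a parameter: any `t : PType`, any odd `p` (no `5 ≤ p`), any `Σ ⊇ Smin`, any base
levels `L = L' · q`, any family `qq` of Taylor–Wiles primes, any upper level `(M, K)`.

* `uu_KG_h593` (A): if every localisation of `X_{KG p L' qq}(𝒪)` at `(Tset, Uset)` vanishes, then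
  `U_q (U_q y) = ⟨u⟩ y` on the localisation of `X_{KG p L qq}(𝒪)`, for every unit `u ≡ q` modulo
  the `qq s`  (`gLevel L qq = gLevel L' qq * q`, `q ∤ gLevel L' qq`).
* `st_KG_h593` (C): `PQ : HeckePkg p 𝒪 ρ̄ t Smin Σ`; `V ⊆ X_K(𝒪)` with an action `a` of `T_Q`
  (`T_ℓ ↦ ⟨ℓ⟩^h T_ℓ`), `W ⊆ X_K(𝒪)`, `c : X_K(𝒪) → X_{KG p L qv}(𝒪)` with NAT, EQUIV, KER
  (`c v = 0 → m • v ∈ W`), vanishing of the localisation at the level `L'`.  Then the Steinberg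
  element `tr ρ(φ)² - (1+q)²` vanishes at every support point of `V / W`.

The twins of IA-ST at `t = .sord` or `p = 3` are instances (with the twins of (MIN) and COR).
-/

set_option autoImplicit false

open Polynomial IsLocalRing CongruenceSubgroup
open scoped MatrixGroups

namespace Fermat.Agent.S38.H593

open Fermat.Agent.S59.Arch Fermat.Agent.S59.TW.H959 Fermat.Agent.S59.TW Fermat.Agent.S59.H765
open Fermat.Agent.S59.TW.H653 Fermat.Agent.S59.TW.Aut Fermat.Agent.S59.TW.H201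
open Fermat.Agent.S38.IA Fermat.Agent.S38.IA.Hecke
open Fermat.Agent.S41.Spec
open CuspForm

/-! ## (A), generic -/

section UU

variable {𝒪 : Type} [CommRing 𝒪] [IsDomain 𝒪] [IsDiscreteValuationRing 𝒪]
  [IsAdicComplete (maximalIdeal 𝒪) 𝒪]

/-- **(UU), generic.**  See the header. -/
theorem uu_KG_h593 (p : ℕ) {ι : Type} [Fintype ι] (qq : ι → ℕ) (L' L q : ℕ) [Fact q.Prime]
    (hlev : gLevel L qq = gLevel L' qq * q) (hN : gLevel L' qq ≠ 0) (hqN : ¬ q ∣ gLevel L' qq)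
    {Tset Uset : Set (ℕ × 𝒪)}
    (hT : ∀ x ∈ Tset, x.1.Prime ∧ ¬ x.1 ∣ gLevel L' qq * q)
    (hU : ∀ x ∈ Uset, x.1.Prime ∧ x.1 ∣ gLevel L' qq)
    (hbot : ∀ W : Submodule 𝒪 (Additive (KG p L' qq) →+ 𝒪),
      IsLocPart (isMid_KG p L' qq) Tset Uset W → W = ⊥)
    {V₁ : Submodule 𝒪 (Additive (KG p L qq) →+ 𝒪)}
    (hV₁ : IsLocPart (isMid_KG p L qq) Tset Uset V₁)
    (u : (ZMod (gLevel L qq))ˣ)
    (hu : ∀ d : ℤ, ((d : ℤ) : ZMod (gLevel L qq)) = ((u : (ZMod (gLevel L qq))ˣ) :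
      ZMod (gLevel L qq)) → ∀ s, (qq s : ℤ) ∣ d - (q : ℤ)) :
    ∀ y ∈ V₁, UK (KG p L qq) q (UK (KG p L qq) q y) = diamondU (isMid_KG p L qq) u y := by
  intro y hy
  have hqprime : q.Prime := Fact.out
  have hM₁ : gLevel L qq ≠ 0 := by
    rw [hlev]
    exact Nat.mul_ne_zero hN hqprime.ne_zero
  have : NeZero (gLevel L qq) := ⟨hM₁⟩
  have key : ∀ V' : Submodule 𝒪 (Additive (Kq (gLevel L' qq) q (KG p L' qq)) →+ 𝒪),
      IsLocPart (isMid_Kq (isMid_KG p L' qq) q) Tset Uset V' →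
      ∃ σ : Gamma0 (gLevel L' qq * q),
        ((((σ : SL(2, ℤ)) 1 1 : ℤ)) : ZMod (gLevel L' qq)) = (q : ZMod (gLevel L' qq)) ∧
        ∀ y ∈ V', UK (Kq (gLevel L' qq) q (KG p L' qq)) q
            (UK (Kq (gLevel L' qq) q (KG p L' qq)) q y) =
          diamond (isMid_Kq (isMid_KG p L' qq) q) σ y := by
    intro V' hV'
    obtain ⟨σ, hσ⟩ := Fermat.Agent.S38.H719.exists_sigma_q (q := q) hN hqN
    exact ⟨σ, hσ, uu_of_lower_bot_h593 hN hqN (isMid_KG p L' qq) hT hU hbot hV' σ hσ⟩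
  obtain ⟨σ, hσ, hUU⟩ := uu_transport_h593 hlev (KG_eq_Kq_h593 p qq L' L q hlev)
    (isMid_KG p L qq) (isMid_Kq (isMid_KG p L' qq) q) (gLevel L' qq) q Tset Uset key V₁ hV₁
  rw [hUU y hy, diamond_eq_diamondU]
  apply diamondU_eq_of_gChi
  apply gChi_eq_of_gRed
  funext j
  apply Units.ext
  rw [coe_gRed_dUnit]
  have hdj : qq j ∣ gLevel L' qq := dvd_gLevel L' qq j
  have e1 : ((((σ : SL(2, ℤ)) 1 1 : ℤ)) : ZMod (qq j)) = (q : ZMod (qq j)) := by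
    have := congrArg (ZMod.castHom hdj (ZMod (qq j))) hσ
    simpa using this
  rw [e1, gRed_apply, ZMod.unitsMap_val]
  have hd := hu ((u : ZMod (gLevel L qq)).val : ℤ)
    (by rw [Int.cast_natCast, ZMod.natCast_zmod_val]) j
  have e2 : ((((u : ZMod (gLevel L qq)).val : ℤ)) : ZMod (qq j)) = ((q : ℤ) : ZMod (qq j)) := by
    rw [ZMod.intCast_eq_intCast_iff_dvd_sub]
    have : ((qq j : ℕ) : ℤ) ∣ -(((u : ZMod (gLevel L qq)).val : ℤ) - q) := (dvd_neg).mpr hd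
    simpa using this
  rw [Int.cast_natCast, Int.cast_natCast] at e2
  rw [← e2]
  exact ZMod.natCast_val (n := gLevel L qq) (R := ZMod (qq j))
    ((u : (ZMod (gLevel L qq))ˣ) : ZMod (gLevel L qq))

end UU

/-! ## (C), generic -/

section Asm

variable {p : ℕ} [Fact p.Prime]
  {𝒪 : Type} [CommRing 𝒪] [IsDomain 𝒪] [IsDiscreteValuationRing 𝒪]
  [IsAdicComplete (maximalIdeal 𝒪) 𝒪] [Finite (ResidueField 𝒪)] [CharZero 𝒪]
  {ρbar : ResidualGaloisRep (ResidueField 𝒪)} {t : PType} {Smin Sig : Finset ℕ}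
  [NeZero (wilesLevel p t Smin Sig)]

set_option maxSynthPendingDepth 3 in
/-- **(ST) at a support point, generic.**  See the header. -/
theorem st_KG_h593 (hS35 : Fermat.Agent.S58.S35Statement)
    (h : ResidualHyp p 𝒪 ρbar Smin) (hsub : Smin ⊆ Sig) (hSigP : ∀ x ∈ Sig, x.Prime)
    (PQ : HeckePkg p 𝒪 ρbar t Smin Sig)
    {r : ℕ} (qv : Fin r → ℕ) (hqi : Function.Injective qv)
    (L' L q : ℕ) (hL : L = L' * q) (hL' : L' ≠ 0) (hqprime : q.Prime) (hqp : q ≠ p)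
    (hqv : ∀ j, (qv j).Prime ∧ Nat.Coprime L (qv j))
    (hqN : ¬ q ∣ gLevel L' qv)
    (hLSig : ∀ ℓ : ℕ, ℓ.Prime → ℓ ∣ gLevel L qv → ℓ ∈ Sig)
    {Uset : Set (ℕ × 𝒪)} (hU : ∀ x ∈ Uset, x.1.Prime ∧ x.1 ∣ gLevel L' qv)
    (hbot : ∀ W : Submodule 𝒪 (Additive (KG p L' qv) →+ 𝒪),
      IsLocPart (isMid_KG p L' qv) (TsetOf PQ) Uset W → W = ⊥)
    {h' : ℕ} (hh : IsHalf p qv h')
    {M : ℕ} {K : Subgroup SL(2, ℤ)} (hK : IsMid M K)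
    (V : Submodule 𝒪 (Additive K →+ 𝒪)) (a : PQ.T →ₐ[𝒪] Module.End 𝒪 V)
    (ha : ActsBy PQ V a (tOpTw hK 𝒪 h'))
    (W : Submodule 𝒪 (Additive K →+ 𝒪))
    (c : (Additive K →+ 𝒪) →ₗ[𝒪] (Additive (KG p L qv) →+ 𝒪)) (m : ℕ) (hm : m ≠ 0)
    (hnat : ∀ V₁ : Submodule 𝒪 (Additive (KG p L qv) →+ 𝒪),
      IsLocPart (isMid_KG p L qv) (TsetOf PQ) Uset V₁ → ∀ v ∈ V, c v ∈ V₁)
    (heq : ∀ (ℓ : ℕ) (hℓ : ℓ.Prime), ¬ ℓ ∣ wilesLevel p t Smin Sig → ℓ ∉ (↑Sig : Set ℕ) →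
      ∀ v ∈ V, c (tOpTw hK 𝒪 h' ℓ hℓ v) = tOpTw (isMid_KG p L qv) 𝒪 h' ℓ hℓ (c v))
    (hker : ∀ v ∈ V, c v = 0 → m • v ∈ W)
    {𝒪' : Type} [CommRing 𝒪'] [IsDomain 𝒪'] [IsDiscreteValuationRing 𝒪']
    [IsAdicComplete (maximalIdeal 𝒪') 𝒪'] [Finite (ResidueField 𝒪')] [CharZero 𝒪']
    (x : PQ.T →+* 𝒪') (hx : IsLocalHom x) (hp' : (p : 𝒪') ∈ maximalIdeal 𝒪')
    (hsupp : ∀ s : PQ.T, (∀ v : V, ((a s v : V) : Additive K →+ 𝒪) ∈ W) → x s = 0)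
    (P : ValuationSubring (AlgebraicClosure ℚ)) (hP : P.LiesOverPrime q)
    (φ : AlgebraicClosure ℚ ≃ₐ[ℚ] AlgebraicClosure ℚ) (hφ : P.IsFrobeniusAt φ q) :
    x (PQ.H.ρ.trace φ ^ 2 - ((1 + q : ℕ) : PQ.T) ^ 2) = 0 := by
  classical
  have : Fact q.Prime := ⟨hqprime⟩
  have hQp : ∀ j, (qv j).Prime := fun j => (hqv j).1
  have hLne : L ≠ 0 := by
    rw [hL]
    exact Nat.mul_ne_zero hL' hqprime.ne_zero
  have hlev : gLevel L qv = gLevel L' qv * q := by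
    unfold gLevel
    rw [hL]
    ring
  have hN' : gLevel L' qv ≠ 0 := gLevel_ne_zero L' qv hL' hQp
  have hM₁ : gLevel L qv ≠ 0 := gLevel_ne_zero L qv hLne hQp
  have : NeZero (gLevel L qv) := ⟨hM₁⟩
  have hN₁ : L * ∏ j, qv j ^ 2 ≠ 0 :=
    Nat.mul_ne_zero hLne (Finset.prod_ne_zero_iff.mpr fun j _ => pow_ne_zero 2 (hQp j).ne_zero)
  have : NeZero (L * ∏ j, qv j ^ 2) := ⟨hN₁⟩
  have hpSig : p ∈ Sig := hsub h.hpSmin
  have hqL : q ∣ L := ⟨L', by rw [hL, mul_comm]⟩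
  have hqM₁ : q ∣ gLevel L qv := dvd_mul_of_dvd_left hqL _
  have hqNN : q ∣ L * ∏ j, qv j ^ 2 := dvd_mul_of_dvd_left hqL _
  have hdvdsq : ∀ ℓ : ℕ, ℓ.Prime → ℓ ∣ L * ∏ j, qv j ^ 2 → ℓ ∣ gLevel L qv :=
    fun ℓ hℓ hd => dvd_gLevel_of_dvd_sq_h593 L hℓ hd
  have hT : ∀ x ∈ TsetOf PQ, x.1.Prime ∧ ¬ x.1 ∣ gLevel L qv := by
    rintro x ⟨hℓ, _, hℓS, _⟩
    exact ⟨hℓ, fun hd => hℓS (Finset.mem_coe.mpr (hLSig x.1 hℓ hd))⟩
  have hT' : ∀ x ∈ TsetOf PQ, x.1.Prime ∧ ¬ x.1 ∣ gLevel L' qv * q := by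
    intro x hx
    rw [← hlev]
    exact hT x hx
  have hUL : ∀ x ∈ Uset, x.1.Prime ∧ x.1 ∣ gLevel L qv := fun x hx =>
    ⟨(hU x hx).1, by rw [hlev]; exact dvd_mul_of_dvd_left (hU x hx).2 _⟩
  -- the localisation at the level `K₁`
  obtain ⟨V₁, hV₁⟩ := Fermat.Agent.S59.TW.Aut.H511.idem 𝒪 (gLevel L qv) hM₁
    (KG p L qv) (isMid_KG p L qv) (TsetOf PQ) Uset hT hUL
  have hpar : ∀ v ∈ V₁, ModularCurve.Period.IsParabolicHom (KG p L qv) v :=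
    Fermat.Agent.S59.TW.H324.isLocPart_parabolic_of_pkg p 𝒪 ρbar Smin h t Sig hsub hSigP PQ hM₁
      (isMid_KG p L qv) hV₁
  have hqS : q ∉ (↑(Sig.erase q) : Set ℕ) := fun hm' =>
    Finset.notMem_erase q _ (Finset.mem_coe.mp hm')
  -- (UU)
  obtain ⟨u, hu⟩ := H264.exists_unit_congr qv L hLne hqi hQp (q := q)
    (fun j => (Nat.coprime_primes hqprime (hQp j)).mpr fun hqj =>
      hqN (hqj ▸ dvd_gLevel L' qv j))
  obtain ⟨σ, hσ⟩ := dUnit_surjective (M := gLevel L qv) u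
  have hUU : ∀ v ∈ V₁, ∃ s : Gamma0 (gLevel L qv),
      (∀ j : Fin r, ((qv j : ℕ) : ℤ) ∣ (s : SL(2, ℤ)) 1 1 - (q : ℤ)) ∧
      UK (KG p L qv) q (UK (KG p L qv) q v) = diamond (isMid_KG p L qv) s v := by
    intro v hv
    refine ⟨σ, fun j => ?_, ?_⟩
    · refine hu _ ?_ j
      rw [← hσ, coe_dUnit]
    · rw [uu_KG_h593 p qv L' L q hlev hN' hqN hT' hU hbot hV₁ u hu v hv, diamond_eq_diamondU,
        hσ]
  -- the action with `U_q`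
  obtain ⟨Ψ, hΨT, hΨU⟩ := H264.exists_psiU_KG p L qv hLne hqi hqv hh (dvd_refl _)
    (↑(Sig.erase q) : Set ℕ) hqNN hqS hqL
    (fun ℓ hℓ hℓN hℓS => by
      by_contra hℓq
      exact hℓS (Finset.mem_coe.mpr (Finset.mem_erase.mpr
        ⟨hℓq, hLSig ℓ hℓ (hdvdsq ℓ hℓ hℓN)⟩)))
    𝒪 V₁ hpar
    (fun ℓ hℓ hℓN _ v hv => isLocPart_tOpTw_mem_h593 _ hV₁ h' ℓ hℓ
      (fun hd => hℓN (hd.trans (gLevel_dvd_sq_h593 _))) hv)
    (fun v hv => isLocPart_UK_mem_h593 _ hV₁ q hqM₁ hv)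
    (fun u v hv => isLocPart_diamondU_mem_h593 _ hV₁ u hv)
    hUU
  -- the corestriction `V → V₁`
  let c' : V →+ V₁ :=
    { toFun := fun v => ⟨c v, hnat V₁ hV₁ v v.2⟩
      map_zero' := Subtype.ext (by simp)
      map_add' := fun v w => Subtype.ext (by simp) }
  have hc'coe : ∀ v : V, ((c' v : V₁) : Additive (KG p L qv) →+ 𝒪) =
      c (v : Additive K →+ 𝒪) := fun _ => rfl
  -- side conditions of `st_of_action_h53`
  have hq2 : ¬ q ^ 2 ∣ L * ∏ j, qv j ^ 2 := by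
    intro hd
    have e : L * ∏ j, qv j ^ 2 = q * (L' * ∏ j, qv j ^ 2) := by
      rw [hL]
      ring
    rw [e, sq] at hd
    have hd' : q ∣ L' * ∏ j, qv j ^ 2 := Nat.dvd_of_mul_dvd_mul_left hqprime.pos hd
    exact hqN (dvd_gLevel_of_dvd_sq_h593 L' hqprime hd')
  have hpS : p ∈ Sig.erase q := Finset.mem_erase.mpr ⟨fun e => hqp e.symm, hpSig⟩
  have hNS : ∀ r' : ℕ, r'.Prime → r' ∣ L * ∏ j, qv j ^ 2 → r' ≠ q → r' ∈ Sig.erase q :=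
    fun r' hr' hd hne => Finset.mem_erase.mpr ⟨hne, hLSig r' hr' (hdvdsq r' hr' hd)⟩
  have hgood : ∀ ℓ : ℕ, ℓ.Prime → ¬ ℓ ∣ L * ∏ j, qv j ^ 2 →
      ℓ ∉ (↑(Sig.erase q) : Set ℕ) →
      ¬ ℓ ∣ wilesLevel p t Smin Sig ∧ ℓ ∉ (↑Sig : Set ℕ) := by
    intro ℓ hℓ hℓN hℓS
    have hℓq : ℓ ≠ q := fun e => hℓN (e ▸ hqNN)
    have hℓSig : ℓ ∉ (↑Sig : Set ℕ) := fun hm' =>
      hℓS (Finset.mem_coe.mpr (Finset.mem_erase.mpr ⟨hℓq, Finset.mem_coe.mp hm'⟩))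
    exact ⟨fun hd => hℓSig (Finset.mem_coe.mpr
      (prime_dvd_wilesLevel p t hsub hSigP hpSig hℓ hd)), hℓSig⟩
  -- occurrence
  have hocc : ∀ Q : FreeAlgebra ℤ (H53.GoodIdx (L * ∏ j, qv j ^ 2)
        (↑(Sig.erase q) : Set ℕ)),
      Ψ (FreeAlgebra.lift ℤ (H53.tFamA (L * ∏ j, qv j ^ 2)
        (↑(Sig.erase q) : Set ℕ)) Q) = 0 →
      FreeAlgebra.lift ℤ (fun i : H53.GoodIdx (L * ∏ j, qv j ^ 2)
          (↑(Sig.erase q) : Set ℕ) =>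
        x (PQ.H.π (heckeAlgebra.T i.2.1 (hgood i.1 i.2.1 i.2.2.1 i.2.2.2).1
          (hgood i.1 i.2.1 i.2.2.1 i.2.2.2).2))) Q = 0 := by
    intro Q hQ
    refine H264.hocc_of_cor (𝒪 := 𝒪) (a : PQ.T →+* Module.End 𝒪 V) Ψ c'
      (fun i : H53.GoodIdx (L * ∏ j, qv j ^ 2) (↑(Sig.erase q) : Set ℕ) =>
        PQ.H.π (heckeAlgebra.T i.2.1 (hgood i.1 i.2.1 i.2.2.1 i.2.2.2).1
          (hgood i.1 i.2.1 i.2.2.1 i.2.2.2).2))
      (H53.tFamA (L * ∏ j, qv j ^ 2) (↑(Sig.erase q) : Set ℕ)) ?_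
      (W.comap V.subtype).toAddSubgroup m hm ?_ x ?_ Q hQ
    · intro i v
      apply Subtype.ext
      rw [hc'coe]
      have h1 := ha i.1 i.2.1 (hgood i.1 i.2.1 i.2.2.1 i.2.2.2).1
        (hgood i.1 i.2.1 i.2.2.1 i.2.2.2).2 v
      have h2 := hΨT i.1 i.2.1 i.2.2.1 i.2.2.2 (c' v)
      have h3 := heq i.1 i.2.1 (hgood i.1 i.2.1 i.2.2.1 i.2.2.2).1
        (hgood i.1 i.2.1 i.2.2.1 i.2.2.2).2 v v.2
      change c ((a (PQ.H.π (heckeAlgebra.T i.2.1 (hgood i.1 i.2.1 i.2.2.1 i.2.2.2).1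
        (hgood i.1 i.2.1 i.2.2.1 i.2.2.2).2)) v : V) : Additive K →+ 𝒪) = _
      rw [h1, h3]
      exact h2.symm
    · intro v hv
      have h1 : c (v : Additive K →+ 𝒪) = 0 := by
        rw [← hc'coe, hv]
        rfl
      have h2 := hker v v.2 h1
      show ((m • v : V) : Additive K →+ 𝒪) ∈ W
      rw [Submodule.coe_smul_of_tower]
      exact h2
    · intro s hs
      exact hsupp s fun v => hs v
  exact H53.st_of_action_h53 (E := Module.End 𝒪 V₁) hS35 PQ.H x hx p hp'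
    hqprime hqp hqNN hq2 (Sig.erase q) hqS hpS hNS hgood Ψ hΨU hocc P hP φ hφ

end Asm

end Fermat.Agent.S38.H593
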