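import Fermat.Agent.S38.H593.StUUCore
import Fermat.Agent.S38.IA.Hecke.Spec4
import Fermat.Agent.S38.IA.Hecke.LevelLemmas

/-!
# Row HARD, cell HECKE, leaf IA-ST, middle glue (A): `U_q² = ⟨q⟩` at the pivots  (helper593)

`L = ribetLevel p Smin Piv`, `K₁ = KG p L qv = Γ₀(L) ∩ Γ_H(Q)` (`Γ₀`-structure at the pivots),
`V₁` the localisation of `X_{K₁}(𝒪)` at `(TsetOf PQ, UsetOf qv α)`.

* `iaStUU_h593 : IAMinZeroStatement → IAStUUStatement` : under (MIN), for every pivot `q`,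
  `U_q (U_q y) = ⟨u⟩ y` for `y ∈ V₁` and every unit `u` modulo the level which is `≡ q` modulo
  every Taylor–Wiles prime (`IsQClass`);
* `iaStUU_twisted_h593` : hence `(⟨w⟩^h U_q)² = 1` on `V₁` if `h` is half (`IsHalf p qv h`):
  this is `Ψ(U_q)² = 1` for the Hecke action with `U_q` of helper264 (`S38/H264/ActionU.lean`).

The input `IAMinZeroStatement` (`S38/IA/Hecke/Spec4.lean`) is proved by squad S55/S59.
-/

set_option autoImplicit false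

open Polynomial IsLocalRing CongruenceSubgroup
open scoped MatrixGroups

namespace Fermat.Agent.S38.H593

open Fermat.Agent.S59.Arch Fermat.Agent.S59.TW.H959 Fermat.Agent.S59.TW Fermat.Agent.S59.H765
open Fermat.Agent.S59.TW.H653 Fermat.Agent.S59.TW.Aut Fermat.Agent.S59.TW.H201
open Fermat.Agent.S38.IA Fermat.Agent.S38.IA.Hecke
open Fermat.Agent.S41.Spec
open CuspForm

/-! ## The group `KG` at two levels -/

section Groups

variable (p : ℕ) {ι : Type} [Fintype ι] (qq : ι → ℕ)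

/-- The condition at the primes `qq s` defining `KG`, independent of the level. -/
def PowCond (g : SL(2, ℤ)) : Prop :=
  ∀ s : ι, ∃ v : (ZMod (qq s))ˣ,
    (((v ^ (p ^ padicValNat p (qq s - 1)) : (ZMod (qq s))ˣ)) : ZMod (qq s)) =
      (((g 1 1 : ℤ)) : ZMod (qq s))

theorem coe_gRed_dUnit (N₀ : ℕ) (g : Gamma0 (gLevel N₀ qq)) (s : ι) :
    ((gRed N₀ qq (dUnit (gLevel N₀ qq) g) s : (ZMod (qq s))ˣ) : ZMod (qq s)) =
      ((((g : SL(2, ℤ)) 1 1 : ℤ)) : ZMod (qq s)) := by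
  rw [gRed_apply, ZMod.unitsMap_val, coe_dUnit]
  have : CharP (ZMod (qq s)) (qq s) := ZMod.charP _
  exact ZMod.cast_intCast (dvd_gLevel N₀ qq s) _

theorem mem_KG_iff_h593 (N₀ : ℕ) (g : SL(2, ℤ)) :
    g ∈ KG p N₀ qq ↔ g ∈ Gamma0 (gLevel N₀ qq) ∧ PowCond p qq g := by
  show g ∈ GammaH (gLevel N₀ qq) (gChi p N₀ qq).ker ↔ _
  rw [mem_GammaH]
  constructor
  · rintro ⟨hg, h⟩
    refine ⟨hg, fun s => ?_⟩
    rw [MonoidHom.mem_ker, gChi_apply] at h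
    have h2 : gRed N₀ qq (dUnit (gLevel N₀ qq) ⟨g, hg⟩) ∈ gPowSub p qq :=
      (QuotientGroup.eq_one_iff _).mp h
    have h3 := (Subgroup.mem_pi Set.univ).mp h2 s (Set.mem_univ s)
    obtain ⟨v, hv⟩ := h3
    refine ⟨v, ?_⟩
    have := coe_gRed_dUnit qq N₀ ⟨g, hg⟩ s
    rw [← this, ← hv]
    rfl
  · rintro ⟨hg, h⟩
    refine ⟨hg, ?_⟩
    rw [MonoidHom.mem_ker, gChi_apply]
    refine (QuotientGroup.eq_one_iff _).mpr ?_
    refine (Subgroup.mem_pi Set.univ).mpr fun s _ => ?_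
    obtain ⟨v, hv⟩ := h s
    refine ⟨v, ?_⟩
    apply Units.ext
    rw [coe_gRed_dUnit qq N₀ ⟨g, hg⟩ s, ← hv]
    rfl

/-- `KG` at the level `N₀ q` is `K_q` of `KG` at the level `N₀`. -/
theorem KG_eq_Kq_h593 (N₀ N₁ q : ℕ) (hN : gLevel N₁ qq = gLevel N₀ qq * q) :
    KG p N₁ qq = Kq (gLevel N₀ qq) q (KG p N₀ qq) := by
  ext g
  rw [mem_Kq, mem_KG_iff_h593, mem_KG_iff_h593, hN]
  constructor
  · rintro ⟨h1, h2⟩
    exact ⟨⟨gamma0_mul_le _ _ h1, h2⟩, h1⟩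
  · rintro ⟨⟨_, h2⟩, h1⟩
    exact ⟨h1, h2⟩

end Groups

/-! ## Transport along an equality of levels and of groups -/

section Transport

variable {𝒪 : Type} [CommRing 𝒪] [IsLocalRing 𝒪]

theorem uu_transport_h593 {M M' : ℕ} {K K' : Subgroup SL(2, ℤ)} (hM : M = M') (hKK : K = K')
    (hK : IsMid M K) (hK' : IsMid M' K') (N q : ℕ) [NeZero q] (Tset Uset : Set (ℕ × 𝒪))
    (H : ∀ V' : Submodule 𝒪 (Additive K' →+ 𝒪), IsLocPart hK' Tset Uset V' →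
      ∃ σ : Gamma0 M', ((((σ : SL(2, ℤ)) 1 1 : ℤ)) : ZMod N) = (q : ZMod N) ∧
        ∀ y ∈ V', UK K' q (UK K' q y) = diamond hK' σ y) :
    ∀ V : Submodule 𝒪 (Additive K →+ 𝒪), IsLocPart hK Tset Uset V →
      ∃ σ : Gamma0 M, ((((σ : SL(2, ℤ)) 1 1 : ℤ)) : ZMod N) = (q : ZMod N) ∧
        ∀ y ∈ V, UK K q (UK K q y) = diamond hK σ y := by
  subst hM
  subst hKK
  exact H

end Transport

/-! ## The statement -/

/-- `u` is congruent to `q` modulo every Taylor–Wiles prime. -/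
def IsQClass {r : ℕ} (qv : Fin r → ℕ) (q M : ℕ) (u : (ZMod M)ˣ) : Prop :=
  ∀ d : ℤ, ((d : ℤ) : ZMod M) = ((u : (ZMod M)ˣ) : ZMod M) → ∀ j, (qv j : ℤ) ∣ d - (q : ℤ)

/-- **IA-ST-UU.**  Under (MIN), `U_q² = ⟨q⟩` on the localisation at level
`Γ₀(L) ∩ Γ_H(Q)`, `L = ribetLevel p Smin Piv`, for every pivot `q`. -/
def IAStUUStatement : Prop :=
  ∀ (p : ℕ) [Fact p.Prime] (_hp5 : 5 ≤ p)
    (𝒪 : Type) [CommRing 𝒪] [IsDomain 𝒪] [IsDiscreteValuationRing 𝒪]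
    [IsAdicComplete (maximalIdeal 𝒪) 𝒪] [Finite (ResidueField 𝒪)] [CharZero 𝒪]
    (ρbar : ResidualGaloisRep (ResidueField 𝒪)) (Smin : Finset ℕ)
    (_h : ResidualHyp p 𝒪 ρbar Smin)
    (_hflat : (GaloisRepAdic.ofResidualGaloisRep ρbar).IsFlatAt p)
    (Piv : Finset ℕ) (_hPiv : IsPivotSet p ρbar Smin Piv)
    (_hmin : ∀ q ∈ Piv, ∀ S : Finset ℕ,
      ¬ ResModular 𝒪 ρbar (ribetLevel p Smin (Piv.erase q)) S)
    (n r : ℕ) (qv : Fin r → ℕ) (_hq : IsTWSet p ρbar (Smin ∪ Piv) n qv)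
    [NeZero (wilesLevel p .flat Smin (Smin ∪ Piv ∪ Finset.univ.image qv))]
    (PQ : HeckePkg p 𝒪 ρbar .flat Smin (Smin ∪ Piv ∪ Finset.univ.image qv))
    (α : Fin r → 𝒪) (_hα : IsFrobLift ρbar qv α)
    (q : ℕ) (_hqP : q ∈ Piv) [NeZero q]
    (V₁ : Submodule 𝒪 (Additive (KG p (ribetLevel p Smin Piv) qv) →+ 𝒪)),
    IsLocPart (isMid_KG p (ribetLevel p Smin Piv) qv) (TsetOf PQ) (UsetOf qv α) V₁ →
    ∀ u : (ZMod (gLevel (ribetLevel p Smin Piv) qv))ˣ,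
      IsQClass qv q (gLevel (ribetLevel p Smin Piv) qv) u →
      ∀ y ∈ V₁, UK (KG p (ribetLevel p Smin Piv) qv) q
          (UK (KG p (ribetLevel p Smin Piv) qv) q y) =
        diamondU (isMid_KG p (ribetLevel p Smin Piv) qv) u y

/-! ## Arithmetic of the levels -/

section Arith

variable {p : ℕ} {Smin Piv : Finset ℕ} {r : ℕ} {qv : Fin r → ℕ}

theorem ribetLevel_erase_mul {q : ℕ} (hq : q ∈ Piv) :
    ribetLevel p Smin Piv = ribetLevel p Smin (Piv.erase q) * q := by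
  unfold ribetLevel
  rw [← Finset.mul_prod_erase Piv (fun x => x) hq]
  ring

theorem gLevel_erase_mul {q : ℕ} (hq : q ∈ Piv) :
    gLevel (ribetLevel p Smin Piv) qv = gLevel (ribetLevel p Smin (Piv.erase q)) qv * q := by
  unfold gLevel
  rw [ribetLevel_erase_mul (p := p) (Smin := Smin) hq]
  ring

/-- A prime dividing `gLevel (ribetLevel p Smin Piv') qv` lies in `Smin ∪ Piv' ∪ image qv`. -/
theorem mem_of_prime_dvd_gLevel (Piv' : Finset ℕ)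
    (hS : ∀ x ∈ Smin, x.Prime) (hP : ∀ x ∈ Piv', x.Prime) (hQ : ∀ j, (qv j).Prime)
    {ℓ : ℕ} (hℓ : ℓ.Prime) (hd : ℓ ∣ gLevel (ribetLevel p Smin Piv') qv) :
    (ℓ ∈ Smin.erase p ∨ ℓ ∈ Piv') ∨ ∃ j, ℓ = qv j := by
  unfold gLevel ribetLevel at hd
  rcases (Nat.Prime.dvd_mul hℓ).mp hd with h1 | h1
  · left
    rcases (Nat.Prime.dvd_mul hℓ).mp h1 with h2 | h2
    · left
      obtain ⟨a, ha, hla⟩ := (Prime.dvd_finsetProd_iff (Nat.Prime.prime hℓ) _).mp h2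
      have := (Nat.prime_dvd_prime_iff_eq hℓ (hS a (Finset.mem_of_mem_erase ha))).mp hla
      rw [this]
      exact ha
    · right
      obtain ⟨a, ha, hla⟩ := (Prime.dvd_finsetProd_iff (Nat.Prime.prime hℓ) _).mp h2
      have := (Nat.prime_dvd_prime_iff_eq hℓ (hP a ha)).mp hla
      rw [this]
      exact ha
  · right
    obtain ⟨a, _, hla⟩ := (Prime.dvd_finsetProd_iff (Nat.Prime.prime hℓ) _).mp h1
    exact ⟨a, (Nat.prime_dvd_prime_iff_eq hℓ (hQ a)).mp hla⟩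

theorem gLevel_ribetLevel_ne_zero (Piv' : Finset ℕ)
    (hS : ∀ x ∈ Smin, x.Prime) (hP : ∀ x ∈ Piv', x.Prime) (hQ : ∀ j, (qv j).Prime) :
    gLevel (ribetLevel p Smin Piv') qv ≠ 0 := by
  apply gLevel_ne_zero _ _ _ hQ
  unfold ribetLevel
  refine Nat.mul_ne_zero ?_ ?_
  · exact Finset.prod_ne_zero_iff.mpr fun a ha => (hS a (Finset.mem_of_mem_erase ha)).ne_zero
  · exact Finset.prod_ne_zero_iff.mpr fun a ha => (hP a ha).ne_zero

end Arith

/-! ## The theorem -/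

theorem iaStUU_h593 (hMZ : IAMinZeroStatement) : IAStUUStatement := by
  intro p _ hp5 𝒪 _ _ _ _ _ _ ρbar Smin h hflat Piv hPiv hmin n r qv hq _ PQ α hα q hqP _ V₁ hV₁
    u hu y hy
  have hqprime : q.Prime := (hPiv q hqP).1
  have : Fact q.Prime := ⟨hqprime⟩
  have hS : ∀ x ∈ Smin, x.Prime := h.hSmin
  have hP : ∀ x ∈ Piv, x.Prime := fun x hx => (hPiv x hx).1
  have hP' : ∀ x ∈ Piv.erase q, x.Prime := fun x hx => hP x (Finset.mem_of_mem_erase hx)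
  have hQ : ∀ j, (qv j).Prime := fun j => (hq.2.1 j).1
  set L' := ribetLevel p Smin (Piv.erase q) with hL'
  set N := gLevel L' qv with hNdef
  have hlev : gLevel (ribetLevel p Smin Piv) qv = N * q := gLevel_erase_mul hqP
  have hN : N ≠ 0 := gLevel_ribetLevel_ne_zero (Piv.erase q) hS hP' hQ
  have hM₁ : gLevel (ribetLevel p Smin Piv) qv ≠ 0 := gLevel_ribetLevel_ne_zero Piv hS hP hQ
  have : NeZero (gLevel (ribetLevel p Smin Piv) qv) := ⟨hM₁⟩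
  have hqN : ¬ q ∣ N := by
    intro hd
    rcases mem_of_prime_dvd_gLevel (Piv.erase q) hS hP' hQ hqprime hd with (h1 | h1) | ⟨j, hj⟩
    · exact (hPiv q hqP).2.1 (Finset.mem_of_mem_erase h1)
    · exact (Finset.notMem_erase q Piv) h1
    · have := (hq.2.1 j).2.1
      rw [← hj] at this
      exact this (Finset.mem_union_right _ hqP)
  -- the sets of generators
  have hT : ∀ x ∈ TsetOf PQ, x.1.Prime ∧ ¬ x.1 ∣ N * q := by
    rintro x ⟨hℓ, _, hℓS, _⟩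
    refine ⟨hℓ, fun hd => ?_⟩
    rw [← hlev] at hd
    rcases mem_of_prime_dvd_gLevel Piv hS hP hQ hℓ hd with (h1 | h1) | ⟨j, hj⟩
    · exact hℓS (by
        simp only [Finset.coe_union, Set.mem_union, Finset.mem_coe]
        exact Or.inl (Or.inl (Finset.mem_of_mem_erase h1)))
    · exact hℓS (by
        simp only [Finset.coe_union, Set.mem_union, Finset.mem_coe]
        exact Or.inl (Or.inr h1))
    · exact hℓS (by
        simp only [Finset.coe_union, Set.mem_union, Finset.mem_coe]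
        exact Or.inr (Finset.mem_image.mpr ⟨j, Finset.mem_univ j, hj.symm⟩))
  have hU : ∀ x ∈ UsetOf qv α, x.1.Prime ∧ x.1 ∣ N := by
    rintro x ⟨j, rfl⟩
    exact ⟨hQ j, dvd_gLevel L' qv j⟩
  -- (MIN): the localisation at the lower level vanishes
  have hbot : ∀ W : Submodule 𝒪 (Additive (KG p L' qv) →+ 𝒪),
      IsLocPart (isMid_KG p L' qv) (TsetOf PQ) (UsetOf qv α) W → W = ⊥ :=
    fun W hW => hMZ p hp5 𝒪 ρbar Smin h hflat Piv hPiv hmin n r qv hq PQ α hα q hqP W hW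
  -- the relation at the level `K_q`
  have key : ∀ V' : Submodule 𝒪 (Additive (Kq N q (KG p L' qv)) →+ 𝒪),
      IsLocPart (isMid_Kq (isMid_KG p L' qv) q) (TsetOf PQ) (UsetOf qv α) V' →
      ∃ σ : Gamma0 (N * q), ((((σ : SL(2, ℤ)) 1 1 : ℤ)) : ZMod N) = (q : ZMod N) ∧
        ∀ y ∈ V', UK (Kq N q (KG p L' qv)) q (UK (Kq N q (KG p L' qv)) q y) =
          diamond (isMid_Kq (isMid_KG p L' qv) q) σ y := by
    intro V' hV'
    obtain ⟨σ, hσ⟩ := Fermat.Agent.S38.H719.exists_sigma_q (q := q) hN hqN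
    exact ⟨σ, hσ, uu_of_lower_bot_h593 hN hqN (isMid_KG p L' qv) hT hU hbot hV' σ hσ⟩
  obtain ⟨σ, hσ, hUU⟩ := uu_transport_h593 hlev (KG_eq_Kq_h593 p qv L' (ribetLevel p Smin Piv) q hlev)
    (isMid_KG p (ribetLevel p Smin Piv) qv) (isMid_Kq (isMid_KG p L' qv) q) N q
    (TsetOf PQ) (UsetOf qv α) key V₁ hV₁
  rw [hUU y hy, diamond_eq_diamondU]
  apply diamondU_eq_of_gChi
  apply gChi_eq_of_gRed
  funext j
  apply Units.ext
  rw [coe_gRed_dUnit]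
  -- both sides are `q` modulo `qv j`
  have hdj : qv j ∣ N := dvd_gLevel L' qv j
  have e1 : ((((σ : SL(2, ℤ)) 1 1 : ℤ)) : ZMod (qv j)) = (q : ZMod (qv j)) := by
    have := congrArg (ZMod.castHom hdj (ZMod (qv j))) hσ
    simpa using this
  rw [e1, gRed_apply, ZMod.unitsMap_val]
  have hd := hu ((u : ZMod (gLevel (ribetLevel p Smin Piv) qv)).val : ℤ)
    (by rw [Int.cast_natCast, ZMod.natCast_zmod_val]) j
  have e2 : ((((u : ZMod (gLevel (ribetLevel p Smin Piv) qv)).val : ℤ)) : ZMod (qv j)) =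
      ((q : ℤ) : ZMod (qv j)) := by
    rw [ZMod.intCast_eq_intCast_iff_dvd_sub]
    have : ((qv j : ℕ) : ℤ) ∣ -(((u : ZMod (gLevel (ribetLevel p Smin Piv) qv)).val : ℤ) - q) :=
      (dvd_neg).mpr hd
    simpa using this
  rw [Int.cast_natCast, Int.cast_natCast] at e2
  rw [← e2]
  exact ZMod.natCast_val (n := gLevel (ribetLevel p Smin Piv) qv) (R := ZMod (qv j))
    ((u : (ZMod (gLevel (ribetLevel p Smin Piv) qv))ˣ) : ZMod (gLevel (ribetLevel p Smin Piv) qv))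

/-! ## The twisted form: `(⟨u⟩^h U_q)² = 1` -/

/-- `gChi (u ^ c) = 1` if `p^{m_s} ∣ c` for all `s`. -/
theorem gChi_pow_h593 (p N₀ : ℕ) {ι : Type} [Fintype ι] (qq : ι → ℕ) {c : ℕ}
    (hc : ∀ s, p ^ padicValNat p (qq s - 1) ∣ c) (u : (ZMod (gLevel N₀ qq))ˣ) :
    gChi p N₀ qq (u ^ c) = 1 := by
  rw [gChi_apply, map_pow]
  refine (QuotientGroup.eq_one_iff _).mpr ?_
  rw [gPowSub, Subgroup.mem_pi]
  intro j _
  obtain ⟨e, he⟩ := hc j
  refine ⟨gRed N₀ qq u j ^ e, ?_⟩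
  rw [powMonoidHom_apply, Pi.pow_apply, he, pow_mul']

/-- **IA-ST-UU, twisted form.**  `(⟨u⟩^h U_q)² = 1` on `V₁` for `h` half and `u ≡ q` modulo
the Taylor–Wiles primes: the operator `Ψ(U_q)` of the Hecke action with `U_q` (helper264,
`exists_heckeActionU_sub_of_odd`, `m = h`, `w q = u`) is an involution of `V₁`. -/
def IAStUUTwStatement : Prop :=
  ∀ (p : ℕ) [Fact p.Prime] (_hp5 : 5 ≤ p)
    (𝒪 : Type) [CommRing 𝒪] [IsDomain 𝒪] [IsDiscreteValuationRing 𝒪]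
    [IsAdicComplete (maximalIdeal 𝒪) 𝒪] [Finite (ResidueField 𝒪)] [CharZero 𝒪]
    (ρbar : ResidualGaloisRep (ResidueField 𝒪)) (Smin : Finset ℕ)
    (_h : ResidualHyp p 𝒪 ρbar Smin)
    (_hflat : (GaloisRepAdic.ofResidualGaloisRep ρbar).IsFlatAt p)
    (Piv : Finset ℕ) (_hPiv : IsPivotSet p ρbar Smin Piv)
    (_hmin : ∀ q ∈ Piv, ∀ S : Finset ℕ,
      ¬ ResModular 𝒪 ρbar (ribetLevel p Smin (Piv.erase q)) S)
    (n r : ℕ) (qv : Fin r → ℕ) (_hq : IsTWSet p ρbar (Smin ∪ Piv) n qv)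
    [NeZero (wilesLevel p .flat Smin (Smin ∪ Piv ∪ Finset.univ.image qv))]
    (PQ : HeckePkg p 𝒪 ρbar .flat Smin (Smin ∪ Piv ∪ Finset.univ.image qv))
    (α : Fin r → 𝒪) (_hα : IsFrobLift ρbar qv α)
    (q : ℕ) (_hqP : q ∈ Piv) [NeZero q]
    (V₁ : Submodule 𝒪 (Additive (KG p (ribetLevel p Smin Piv) qv) →+ 𝒪)),
    IsLocPart (isMid_KG p (ribetLevel p Smin Piv) qv) (TsetOf PQ) (UsetOf qv α) V₁ →
    ∀ h' : ℕ, IsHalf p qv h' →
    ∀ u : (ZMod (gLevel (ribetLevel p Smin Piv) qv))ˣ,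
      IsQClass qv q (gLevel (ribetLevel p Smin Piv) qv) u →
      ∀ y ∈ V₁,
        diamondU (isMid_KG p (ribetLevel p Smin Piv) qv) (u ^ h')
          (UK (KG p (ribetLevel p Smin Piv) qv) q
            (diamondU (isMid_KG p (ribetLevel p Smin Piv) qv) (u ^ h')
              (UK (KG p (ribetLevel p Smin Piv) qv) q y))) = y

theorem iaStUU_twisted_h593 (hUU : IAStUUStatement) : IAStUUTwStatement := by
  intro p _ hp5 𝒪 _ _ _ _ _ _ ρbar Smin h hflat Piv hPiv hmin n r qv hq _ PQ α hα q hqP _ V₁ hV₁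
    h' hh' u hu y hy
  have hqprime : q.Prime := (hPiv q hqP).1
  have : Fact q.Prime := ⟨hqprime⟩
  have hS : ∀ x ∈ Smin, x.Prime := h.hSmin
  have hP : ∀ x ∈ Piv, x.Prime := fun x hx => (hPiv x hx).1
  have hQ : ∀ j, (qv j).Prime := fun j => (hq.2.1 j).1
  have hM₁ : gLevel (ribetLevel p Smin Piv) qv ≠ 0 := gLevel_ribetLevel_ne_zero Piv hS hP hQ
  have : NeZero (gLevel (ribetLevel p Smin Piv) qv) := ⟨hM₁⟩
  have hqM : q ∣ gLevel (ribetLevel p Smin Piv) qv := by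
    rw [gLevel_erase_mul hqP]
    exact Dvd.intro_left _ rfl
  have h1 := hUU p hp5 𝒪 ρbar Smin h hflat Piv hPiv hmin n r qv hq PQ α hα q hqP V₁ hV₁ u hu y hy
  rw [diamondU_UK (isMid_KG p (ribetLevel p Smin Piv) qv) hqM, h1, ← diamondU_mul,
    ← diamondU_mul]
  apply diamondU_of_gChi
  have e : u ^ h' * u ^ h' * u = u ^ (2 * h' + 1) := by
    rw [pow_succ, two_mul, pow_add]
  rw [e]
  exact gChi_pow_h593 p (ribetLevel p Smin Piv) qv hh' u

end Fermat.Agent.S38.H593
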