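import Fermat.Agent.S59.H105.NatLoc
import Fermat.Agent.S59.TW.Aut.H511.Idem
import Fermat.Agent.S59.TW.H653.Cross.Conj
import Fermat.Agent.S59.TW.H201.KDegLinear
import Fermat.Agent.S38.H719.UUK

/-!
# Row HARD, cell HECKE, leaf IA-ST, middle glue (A), generic core  (helper593)

Level `N`, a prime `q ∤ N`, a group `Γ₁(N) ≤ K ≤ Γ₀(N)`, `K_q = K ⊓ Γ₀(N q)`
(vocabulary of helper201, `S59/TW/H201/KDegDefs.lean`).

`uu_of_lower_bot_h593` : if every localisation of `X_K(𝒪)` at `(Tset, Uset)` is zero, then on the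
localisation `V` of `X_{K_q}(𝒪)` at `(Tset, Uset)` the operator `U_q` satisfies `U_q² = ⟨σ⟩`,
`σ ∈ Γ₀(N q)` with lower right entry `≡ q mod N`.

Proof: both transfers `t₁, t₂ : X_{K_q} → X_K` commute with the `T_ℓ` and the `U_{q'}`
(`H653.Cross`, helper653), hence map `V` into the localisation of `X_K(𝒪)`
(`H105.nat_of_isLocPart`, helper105), which exists (`Aut.H511.idem`) and is zero; conclude by the
relation (UU) at `Γ_H`-levels (`H719.UK_UK_K_of_new`, helper719).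
-/

set_option autoImplicit false

open IsLocalRing CongruenceSubgroup
open scoped MatrixGroups

namespace Fermat.Agent.S38.H593

open Fermat.Agent.S59.TW.H653 Fermat.Agent.S59.TW.Aut Fermat.Agent.S59.TW.H201
open Fermat.Agent.S41.Spec

section Core

variable {𝒪 : Type} [CommRing 𝒪] [IsDomain 𝒪] [IsDiscreteValuationRing 𝒪]
  [IsAdicComplete (maximalIdeal 𝒪) 𝒪]
  {N q : ℕ} [Fact q.Prime] {K : Subgroup SL(2, ℤ)}

/-- Both transfers kill the localisation at level `K_q` if the localisation at level `K`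
vanishes. -/
theorem transfers_eq_zero_h593 (hN : N ≠ 0) (hqN : ¬ q ∣ N) (hK : IsMid N K)
    {Tset Uset : Set (ℕ × 𝒪)}
    (hT : ∀ x ∈ Tset, x.1.Prime ∧ ¬ x.1 ∣ N * q) (hU : ∀ x ∈ Uset, x.1.Prime ∧ x.1 ∣ N)
    (hbot : ∀ W : Submodule 𝒪 (Additive K →+ 𝒪), IsLocPart hK Tset Uset W → W = ⊥)
    {V : Submodule 𝒪 (Additive (Kq N q K) →+ 𝒪)}
    (hV : IsLocPart (isMid_Kq hK q) Tset Uset V) :
    ∀ y ∈ V, t₁K N q K y = 0 ∧ t₂K hK q y = 0 := by
  have hqp : q.Prime := Fact.out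
  have hT' : ∀ x ∈ Tset, x.1.Prime ∧ ¬ x.1 ∣ N := fun x hx =>
    ⟨(hT x hx).1, fun h => (hT x hx).2 (dvd_mul_of_dvd_left h q)⟩
  have hUq : ∀ x ∈ Uset, x.1.Prime ∧ x.1 ∣ N * q := fun x hx =>
    ⟨(hU x hx).1, dvd_mul_of_dvd_left (hU x hx).2 q⟩
  obtain ⟨W, hW⟩ := Fermat.Agent.S59.TW.Aut.H511.idem 𝒪 N hN K hK Tset Uset hT' hU
  have hWbot : W = ⊥ := hbot W hW
  have hcop : Nat.Coprime N q := (hqp.coprime_iff_not_dvd.mpr hqN).symm
  have hmem : ∀ k : SL(2, ℤ), k ∈ K → k ∈ Gamma0 (N * q) → k ∈ Kq N q K :=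
    fun _ h1 h2 => ⟨h1, h2⟩
  -- `t₁`
  have h1 : ∀ y ∈ V, t₁KL 𝒪 𝒪 N q K y ∈ W := by
    refine Fermat.Agent.S59.H105.nat_of_isLocPart hN (isMid_Kq hK q) hK hV hW
      subset_rfl subset_rfl hT hUq hT' hU (t₁KL 𝒪 𝒪 N q K) ?_
    intro i x
    rcases i with i | i
    · have : Fact i.1.1.Prime := ⟨(hT i.1 i.2).1⟩
      show t₁K N q K (TK (N * q) (Kq N q K) i.1.1 x - i.1.2 • x) =
        TK N K i.1.1 (t₁K N q K x) - i.1.2 • t₁K N q K x
      have e1 := Fermat.Agent.S59.TW.H653.Cross.TK_coresK hK (isMid_Kq hK q) (Kq_le N q K) hmem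
        (hT i.1 i.2).2 x
      have e2 : t₁K N q K (TK (N * q) (Kq N q K) i.1.1 x - i.1.2 • x) =
          t₁K N q K (TK (N * q) (Kq N q K) i.1.1 x) - i.1.2 • t₁K N q K x := by
        have := (t₁KL 𝒪 𝒪 N q K).map_sub (TK (N * q) (Kq N q K) i.1.1 x) (i.1.2 • x)
        rw [(t₁KL 𝒪 𝒪 N q K).map_smul] at this
        exact this
      rw [e2]
      congr 1
      exact e1.symm
    · have : Fact i.1.1.Prime := ⟨(hU i.1 i.2).1⟩
      show t₁K N q K (UK (Kq N q K) i.1.1 x - i.1.2 • x) =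
        UK K i.1.1 (t₁K N q K x) - i.1.2 • t₁K N q K x
      have e1 := Fermat.Agent.S59.TW.H653.Cross.UK_coresK hK (isMid_Kq hK q) (Kq_le N q K) hmem
        hcop (hU i.1 i.2).2 x
      have e2 : t₁K N q K (UK (Kq N q K) i.1.1 x - i.1.2 • x) =
          t₁K N q K (UK (Kq N q K) i.1.1 x) - i.1.2 • t₁K N q K x := by
        have := (t₁KL 𝒪 𝒪 N q K).map_sub (UK (Kq N q K) i.1.1 x) (i.1.2 • x)
        rw [(t₁KL 𝒪 𝒪 N q K).map_smul] at this
        exact this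
      rw [e2]
      congr 1
      exact e1.symm
  -- `t₂`
  have h2 : ∀ y ∈ V, t₂KL 𝒪 𝒪 hK q y ∈ W := by
    refine Fermat.Agent.S59.H105.nat_of_isLocPart hN (isMid_Kq hK q) hK hV hW
      subset_rfl subset_rfl hT hUq hT' hU (t₂KL 𝒪 𝒪 hK q) ?_
    intro i x
    rcases i with i | i
    · have : Fact i.1.1.Prime := ⟨(hT i.1 i.2).1⟩
      show t₂K hK q (TK (N * q) (Kq N q K) i.1.1 x - i.1.2 • x) =
        TK N K i.1.1 (t₂K hK q x) - i.1.2 • t₂K hK q x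
      have e1 := Fermat.Agent.S59.TW.H653.Cross.TK_t₂ hK (isMid_Kq hK q) hmem hqp.ne_zero
        (conjDeltaK hK q) (fun _ => rfl) (hT i.1 i.2).2 x
      have e2 : t₂K hK q (TK (N * q) (Kq N q K) i.1.1 x - i.1.2 • x) =
          t₂K hK q (TK (N * q) (Kq N q K) i.1.1 x) - i.1.2 • t₂K hK q x := by
        have := (t₂KL 𝒪 𝒪 hK q).map_sub (TK (N * q) (Kq N q K) i.1.1 x) (i.1.2 • x)
        rw [(t₂KL 𝒪 𝒪 hK q).map_smul] at this
        exact this
      rw [e2]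
      congr 1
      exact e1.symm
    · have : Fact i.1.1.Prime := ⟨(hU i.1 i.2).1⟩
      show t₂K hK q (UK (Kq N q K) i.1.1 x - i.1.2 • x) =
        UK K i.1.1 (t₂K hK q x) - i.1.2 • t₂K hK q x
      have e1 := Fermat.Agent.S59.TW.H653.Cross.UK_t₂ hK (isMid_Kq hK q) hmem hqp.ne_zero
        (conjDeltaK hK q) (fun _ => rfl) (hU i.1 i.2).2 x
      have e2 : t₂K hK q (UK (Kq N q K) i.1.1 x - i.1.2 • x) =
          t₂K hK q (UK (Kq N q K) i.1.1 x) - i.1.2 • t₂K hK q x := by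
        have := (t₂KL 𝒪 𝒪 hK q).map_sub (UK (Kq N q K) i.1.1 x) (i.1.2 • x)
        rw [(t₂KL 𝒪 𝒪 hK q).map_smul] at this
        exact this
      rw [e2]
      congr 1
      exact e1.symm
  intro y hy
  refine ⟨?_, ?_⟩
  · have := h1 y hy
    rw [hWbot, Submodule.mem_bot] at this
    exact this
  · have := h2 y hy
    rw [hWbot, Submodule.mem_bot] at this
    exact this

/-- **`U_q² = ⟨σ⟩` on the localisation at level `K_q`**, if the localisation at level `K`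
vanishes. -/
theorem uu_of_lower_bot_h593 (hN : N ≠ 0) (hqN : ¬ q ∣ N) (hK : IsMid N K)
    {Tset Uset : Set (ℕ × 𝒪)}
    (hT : ∀ x ∈ Tset, x.1.Prime ∧ ¬ x.1 ∣ N * q) (hU : ∀ x ∈ Uset, x.1.Prime ∧ x.1 ∣ N)
    (hbot : ∀ W : Submodule 𝒪 (Additive K →+ 𝒪), IsLocPart hK Tset Uset W → W = ⊥)
    {V : Submodule 𝒪 (Additive (Kq N q K) →+ 𝒪)}
    (hV : IsLocPart (isMid_Kq hK q) Tset Uset V)
    (σ : Gamma0 (N * q))
    (hσ : ((dUnit N (incl N q σ) : (ZMod N)ˣ) : ZMod N) = (q : ZMod N)) :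
    ∀ y ∈ V, UK (Kq N q K) q (UK (Kq N q K) q y) = diamond (isMid_Kq hK q) σ y := by
  intro y hy
  obtain ⟨h1, h2⟩ := transfers_eq_zero_h593 hN hqN hK hT hU hbot hV y hy
  exact Fermat.Agent.S38.H719.UK_UK_K_of_new hK hN hqN σ hσ y h1 h2

end Core

end Fermat.Agent.S38.H593
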